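import Mathlib

/-!
# S22, route A, package D1: the discriminant has an integral `q`-expansion

`qExpansion 1 Δ = X * T₁` with `T₁ ∈ ℤ⟦X⟧` of constant coefficient `1`.
-/

set_option autoImplicit false

namespace Fermat.Agent.S22.H45

open UpperHalfPlane ModularForm EisensteinSeries
open scoped MatrixGroups ModularForm

/-- Generating series of `σ₃`. -/
noncomputable def sigSer (k : ℕ) : PowerSeries ℤ :=
  PowerSeries.mk fun n => (ArithmeticFunction.sigma k n : ℤ)

theorem twelve_dvd_pow (d : ℤ) : (12 : ℤ) ∣ 5 * d ^ 3 + 7 * d ^ 5 := by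
  have h : ∀ x : ZMod 12, 5 * x ^ 3 + 7 * x ^ 5 = 0 := by decide
  have h1 := h (d : ZMod 12)
  have h2 : (((5 * d ^ 3 + 7 * d ^ 5 : ℤ) : ZMod 12) = 0) := by
    push_cast
    exact h1
  have h3 := (ZMod.intCast_zmod_eq_zero_iff_dvd _ 12).mp h2
  exact_mod_cast h3

theorem twelve_dvd_sigma (n : ℕ) :
    (12 : ℤ) ∣ 5 * (ArithmeticFunction.sigma 3 n : ℤ) + 7 * (ArithmeticFunction.sigma 5 n : ℤ) := by
  simp only [ArithmeticFunction.sigma_apply]
  push_cast
  rw [Finset.mul_sum, Finset.mul_sum, ← Finset.sum_add_distrib]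
  exact Finset.dvd_sum fun d _ => twelve_dvd_pow d

/-- The series `(5 σ₃ + 7 σ₅) / 12`. -/
noncomputable def wSer : PowerSeries ℤ :=
  PowerSeries.mk fun n =>
    (5 * (ArithmeticFunction.sigma 3 n : ℤ) + 7 * (ArithmeticFunction.sigma 5 n : ℤ)) / 12

theorem wSer_spec : (5 : PowerSeries ℤ) * sigSer 3 + 7 * sigSer 5 = 12 * wSer := by
  ext n
  have h5 : (5 : PowerSeries ℤ) = PowerSeries.C (5 : ℤ) := by simp
  have h7 : (7 : PowerSeries ℤ) = PowerSeries.C (7 : ℤ) := by simp
  have h12 : (12 : PowerSeries ℤ) = PowerSeries.C (12 : ℤ) := by simp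
  rw [h5, h7, h12]
  simp only [map_add, PowerSeries.coeff_C_mul, sigSer, wSer, PowerSeries.coeff_mk]
  rw [Int.mul_ediv_cancel' (twelve_dvd_sigma n)]

/-- The integral power series of `Δ`. -/
noncomputable def tauSer : PowerSeries ℤ :=
  wSer + 100 * sigSer 3 ^ 2 + 8000 * sigSer 3 ^ 3 - 147 * sigSer 5 ^ 2

theorem tauSer_spec :
    (1 + 240 * sigSer 3) ^ 3 - (1 - 504 * sigSer 5) ^ 2 = 1728 * tauSer := by
  have h := wSer_spec
  rw [tauSer]
  linear_combination 144 * h

theorem qExpansion_E4_eq :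
    qExpansion 1 E₄ = (1 + 240 * sigSer 3).map (Int.castRingHom ℂ) := by
  ext n
  rw [E_qExpansion_coeff (by norm_num) ⟨2, rfl⟩]
  have h240 : (240 : PowerSeries ℤ) = PowerSeries.C (240 : ℤ) := by simp
  rw [h240]
  simp only [PowerSeries.coeff_map, map_add, PowerSeries.coeff_one, PowerSeries.coeff_C_mul,
    sigSer, PowerSeries.coeff_mk]
  split_ifs with h
  · subst h
    simp
  · norm_num [show bernoulli 4 = -1 / 30 by decide +kernel]

theorem qExpansion_E6_eq :
    qExpansion 1 E₆ = (1 - 504 * sigSer 5).map (Int.castRingHom ℂ) := by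
  ext n
  rw [E_qExpansion_coeff (by norm_num) ⟨3, rfl⟩]
  have h504 : (504 : PowerSeries ℤ) = PowerSeries.C (504 : ℤ) := by simp
  rw [h504]
  simp only [PowerSeries.coeff_map, map_sub, PowerSeries.coeff_one, PowerSeries.coeff_C_mul,
    sigSer, PowerSeries.coeff_mk]
  split_ifs with h
  · subst h
    simp
  · norm_num [show bernoulli 6 = 1 / 42 by decide +kernel]

/-- The weight-12 form `E₄³ - E₆²`. -/
noncomputable def e4e6 : ModularForm 𝒮ℒ 12 :=
  ModularForm.mcast (by decide) (E₄.pow 3) - ModularForm.mcast (by decide) (E₆.pow 2)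

theorem e4e6_apply (z : ℍ) : e4e6 z = E₄ z ^ 3 - E₆ z ^ 2 := by
  simp only [e4e6, coe_mcast, coe_pow, sub_apply, Pi.pow_apply]

theorem qExpansion_e4e6 :
    qExpansion 1 e4e6 = qExpansion 1 E₄ ^ 3 - qExpansion 1 E₆ ^ 2 := by
  simp only [e4e6, FunLike.coe_sub, coe_mcast,
    ModularForm.qExpansion_sub one_pos one_mem_strictPeriods_SL,
    ModularForm.qExpansion_pow one_pos one_mem_strictPeriods_SL]

theorem qExpansion_discriminant_eq :
    qExpansion 1 ModularForm.discriminant = tauSer.map (Int.castRingHom ℂ) := by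
  have h1 : (e4e6 : ℍ → ℂ) = ((1728 : ℂ) • CuspForm.discriminant : CuspForm 𝒮ℒ 12) := by
    funext z
    rw [e4e6_apply]
    show _ = (1728 : ℂ) * ModularForm.discriminant z
    rw [discriminant_eq_E₄_cube_sub_E₆_sq]
    ring
  have h2 : qExpansion 1 e4e6 = (1728 : ℂ) • qExpansion 1 ModularForm.discriminant := by
    rw [h1]
    exact ModularForm.qExpansion_smul one_pos one_mem_strictPeriods_SL 1728 CuspForm.discriminant
  rw [qExpansion_e4e6, qExpansion_E4_eq, qExpansion_E6_eq, ← map_pow, ← map_pow, ← map_sub,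
    tauSer_spec] at h2
  ext n
  have h3 := congrArg (PowerSeries.coeff n) h2
  have hc : PowerSeries.coeff n ((1728 : PowerSeries ℤ) * tauSer) =
      1728 * PowerSeries.coeff n tauSer := by
    have h1728 : (1728 : PowerSeries ℤ) = PowerSeries.C (1728 : ℤ) := by simp
    rw [h1728, PowerSeries.coeff_C_mul]
  rw [PowerSeries.coeff_map, hc, PowerSeries.coeff_smul, smul_eq_mul, eq_intCast] at h3
  rw [PowerSeries.coeff_map, eq_intCast]
  have h4 : (1728 : ℂ) ≠ 0 := by norm_num
  push_cast at h3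
  exact (mul_left_cancel₀ h4 h3).symm

theorem tauSer_coeff_zero : tauSer.coeff 0 = 0 := by
  have h := CuspFormClass.qExpansion_coeff_zero CuspForm.discriminant one_pos
    one_mem_strictPeriods_SL
  rw [CuspForm.coe_discriminant, qExpansion_discriminant_eq, PowerSeries.coeff_map,
    eq_intCast] at h
  exact_mod_cast h

theorem tauSer_coeff_one : tauSer.coeff 1 = 1 := by
  have h := discriminant_qExpansion_coeff_one
  rw [qExpansion_discriminant_eq, PowerSeries.coeff_map, eq_intCast] at h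
  exact_mod_cast h

/-- `tauSer / X`. -/
noncomputable def tauSer1 : PowerSeries ℤ := PowerSeries.mk fun n => tauSer.coeff (n + 1)

theorem tauSer_eq : tauSer = PowerSeries.X * tauSer1 := by
  ext n
  rcases n with _ | n
  · simp [tauSer_coeff_zero]
  · rw [PowerSeries.coeff_succ_X_mul, tauSer1, PowerSeries.coeff_mk]

theorem constantCoeff_tauSer1 : PowerSeries.constantCoeff tauSer1 = 1 := by
  rw [← PowerSeries.coeff_zero_eq_constantCoeff_apply, tauSer1, PowerSeries.coeff_mk]
  exact tauSer_coeff_one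

/-- **D1.** The `q`-expansion of `Δ` is `X * T₁` with `T₁ ∈ ℤ⟦X⟧`, `T₁(0) = 1`. -/
theorem qExpansion_discriminant_eq_X_mul :
    qExpansion 1 ModularForm.discriminant =
      PowerSeries.X * tauSer1.map (Int.castRingHom ℂ) := by
  rw [qExpansion_discriminant_eq, tauSer_eq, map_mul, PowerSeries.map_X]

end Fermat.Agent.S22.H45
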