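import Mathlib
import Fermat.Prelude.Def_ModularForm_HeckeOperator
import Fermat.Agent.S23.H21.SepForm
import Fermat.Agent.S22.H45.DeltaInt

/-!
# S22, route A, package D2/D3: the translates of `z ↦ N¹¹ Δ(N z)` and their `q`-expansions
-/

set_option autoImplicit false

namespace Fermat.Agent.S22.H45

open UpperHalfPlane ModularForm CongruenceSubgroup Filter Topology Matrix.SpecialLinearGroup
open scoped MatrixGroups Manifold ModularForm Real

open Fermat.Agent.S23.H21 (exists_decomp slash_upperTriangularGL_apply det_upperTriangularGL)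

local notation "𝕢" => Function.Periodic.qParam

theorem coe_upperTriangularGL_smul {a b d : ℝ} (ha : 0 < a) (hd : 0 < d) (h : a * d ≠ 0)
    (τ : ℍ) :
    ((upperTriangularGL a b d h • τ : ℍ) : ℂ) = ((a : ℂ) * (τ : ℂ) + b) / d := by
  rw [UpperHalfPlane.coe_smul_of_det_pos (by rw [det_upperTriangularGL]; exact mul_pos ha hd)]
  simp [UpperHalfPlane.num, UpperHalfPlane.denom, val_upperTriangularGL]

theorem qParam_upperTriangularGL {A D : ℕ} (hA : 0 < A) (hD : 0 < D) (B : ℤ)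
    (hAD : (A : ℝ) * (D : ℝ) ≠ 0) (τ : ℍ) :
    𝕢 1 ((upperTriangularGL A B D hAD • τ : ℍ) : ℂ) =
      Complex.exp (2 * π * Complex.I * B / D) * 𝕢 ((A * D : ℕ) : ℝ) (τ : ℂ) ^ (A ^ 2) := by
  rw [coe_upperTriangularGL_smul (by exact_mod_cast hA) (by exact_mod_cast hD)]
  simp only [Function.Periodic.qParam]
  rw [← Complex.exp_nat_mul, ← Complex.exp_add]
  congr 1
  have hA' : (A : ℂ) ≠ 0 := by exact_mod_cast hA.ne'
  have hD' : (D : ℂ) ≠ 0 := by exact_mod_cast hD.ne'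
  push_cast
  field_simp
  ring

/-- If `F` has the `q`-expansion `P` (period `1`), then `τ ↦ F ((A τ + B) / D)` has the
`q`-expansion `P(ζ X^{A²})` in the parameter of period `A D`, where `ζ = exp (2 π i B / D)`. -/
theorem hasSum_comp_upperTriangularGL {F : ℍ → ℂ} {P : PowerSeries ℂ}
    (hF : ∀ τ : ℍ, HasSum (fun n : ℕ => P.coeff n • 𝕢 1 (τ : ℂ) ^ n) (F τ))
    {A D : ℕ} (hA : 0 < A) (hD : 0 < D) (B : ℤ) (hAD : (A : ℝ) * (D : ℝ) ≠ 0) (τ : ℍ) :
    HasSum (fun m : ℕ => (PowerSeries.expand (A ^ 2) (pow_ne_zero 2 hA.ne')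
        (PowerSeries.rescale (Complex.exp (2 * π * Complex.I * B / D)) P)).coeff m •
          𝕢 ((A * D : ℕ) : ℝ) (τ : ℂ) ^ m)
      (F (upperTriangularGL A B D hAD • τ)) := by
  have h1 := hF (upperTriangularGL A B D hAD • τ)
  rw [qParam_upperTriangularGL hA hD] at h1
  have hinj : Function.Injective (fun n : ℕ => A ^ 2 * n) := fun a b h =>
    Nat.eq_of_mul_eq_mul_left (pow_pos hA 2) h
  rw [← hinj.hasSum_iff]
  · convert h1 using 2 with n
    simp only [Function.comp_apply, PowerSeries.coeff_expand_mul, PowerSeries.coeff_rescale,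
      smul_eq_mul, mul_pow, ← pow_mul]
    ring
  · intro m hm
    have : ¬ A ^ 2 ∣ m := fun ⟨k, hk⟩ => hm ⟨k, hk.symm⟩
    rw [PowerSeries.coeff_expand_of_not_dvd _ _ _ this, zero_smul]

/-- A function on `ℍ` given by a convergent `q`-expansion in the parameter of period `h` is
`h`-periodic. -/
theorem periodic_of_hasSum {F : ℍ → ℂ} {c : ℕ → ℂ} {h : ℝ} (hh : 0 < h)
    (hF : ∀ τ : ℍ, HasSum (fun m : ℕ => c m • 𝕢 h (τ : ℂ) ^ m) (F τ)) :
    Function.Periodic (F ∘ ofComplex) (h : ℂ) := by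
  intro w
  by_cases hw : 0 < Complex.im w
  · have hw' : 0 < Complex.im (w + h) := by simp [hw]
    simp only [Function.comp_apply, ofComplex_apply_of_im_pos hw', ofComplex_apply_of_im_pos hw]
    have h1 := hF ⟨w + h, hw'⟩
    have h2 := hF ⟨w, hw⟩
    have hq : 𝕢 h ((⟨w + h, hw'⟩ : ℍ) : ℂ) = 𝕢 h ((⟨w, hw⟩ : ℍ) : ℂ) := by
      have hh' : (h : ℂ) ≠ 0 := by exact_mod_cast hh.ne'
      show Complex.exp (2 * π * Complex.I * (w + h) / h) = Complex.exp (2 * π * Complex.I * w / h)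
      rw [show 2 * π * Complex.I * (w + h) / h = 2 * π * Complex.I * w / h + 2 * π * Complex.I by
        field_simp, Complex.exp_add, Complex.exp_two_pi_mul_I, mul_one]
    rw [hq] at h1
    exact h1.unique h2
  · have hw0 : Complex.im w ≤ 0 := not_lt.mp hw
    have hw' : Complex.im (w + h) ≤ 0 := by simpa using hw0
    simp [ofComplex_apply_of_im_nonpos hw', ofComplex_apply_of_im_nonpos hw0]

/-- A holomorphic function on `ℍ` given by a convergent `q`-expansion has an analytic cusp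
function. -/
theorem analyticAt_cuspFunction_of_hasSum {F : ℍ → ℂ} {c : ℕ → ℂ} {h : ℝ} (hh : 0 < h)
    (hhol : MDiff F) (hF : ∀ τ : ℍ, HasSum (fun m : ℕ => c m • 𝕢 h (τ : ℂ) ^ m) (F τ)) :
    AnalyticAt ℂ (cuspFunction h F) 0 :=
  UpperHalfPlane.analyticAt_cuspFunction_zero hh (periodic_of_hasSum hh hF) hhol
    (isBoundedAtImInfty_of_hasSum_qExpansion hh hF)

theorem coeff_eq_of_hasSum {F : ℍ → ℂ} {c : ℕ → ℂ} {h : ℝ} (hh : 0 < h)
    (han : AnalyticAt ℂ (cuspFunction h F) 0)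
    (hF : ∀ τ : ℍ, HasSum (fun m : ℕ => c m • 𝕢 h (τ : ℂ) ^ m) (F τ)) (m : ℕ) :
    c m = (qExpansion h F).coeff m := by
  have h1 := (hasFPowerSeriesOnBall_cuspFunction hh han hF).hasFPowerSeriesAt
  have h2 : HasFPowerSeriesAt (cuspFunction h F)
      (.ofScalars ℂ fun m ↦ (qExpansion h F).coeff m) 0 := by
    simpa [qExpansion_coeff, div_eq_mul_inv, mul_comm] using han.hasFPowerSeriesAt
  have h3 := congr_arg (FormalMultilinearSeries.coeff · m) (h1.eq_formalMultilinearSeries h2)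
  simpa [FormalMultilinearSeries.coeff_ofScalars] using h3

theorem qExpansion_eq_of_hasSum {F : ℍ → ℂ} {S : PowerSeries ℂ} {h : ℝ} (hh : 0 < h)
    (hhol : MDiff F) (hF : ∀ τ : ℍ, HasSum (fun m : ℕ => S.coeff m • 𝕢 h (τ : ℂ) ^ m) (F τ)) :
    qExpansion h F = S := by
  ext m
  exact (coeff_eq_of_hasSum hh (analyticAt_cuspFunction_of_hasSum hh hhol hF) hF m).symm

/-- The function `z ↦ N¹¹ Δ(N z)`, i.e. `Δ ∣[12] diag(N, 1)`. -/
noncomputable def deltaFun (N : ℕ) : ℍ → ℂ :=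
  (ModularForm.discriminant : ℍ → ℂ) ∣[(12 : ℤ)] heckeDiagMatrix N

theorem hasSum_discriminant (τ : ℍ) :
    HasSum (fun n : ℕ => (qExpansion 1 ModularForm.discriminant).coeff n • 𝕢 1 (τ : ℂ) ^ n)
      (ModularForm.discriminant τ) := by
  have := ModularForm.hasSum_qExpansion (f := CuspForm.discriminant) one_pos
    one_mem_strictPeriods_SL τ
  simpa using this

theorem mdiff_deltaFun_slash (N : ℕ) (g : GL (Fin 2) ℝ) : MDiff (deltaFun N ∣[(12 : ℤ)] g) :=
  ((ModularFormClass.holo CuspForm.discriminant).slash 12 (heckeDiagMatrix N)).slash 12 g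

/-- The translate of `deltaFun N` by `γ ∈ SL(2,ℤ)` is `N¹¹ D⁻¹² Δ((A z + B) / D)` with `A D = N`,
and `D = 1` exactly when `γ ∈ Γ₀(N)`. -/
theorem deltaFun_slash (N : ℕ) [NeZero N] (γ : SL(2, ℤ)) :
    ∃ (A D : ℕ) (B : ℤ) (hAD : (A : ℝ) * (D : ℝ) ≠ 0), 0 < A ∧ 0 < D ∧ A * D = N ∧
      (D = 1 ↔ γ ∈ Gamma0 N) ∧
      deltaFun N ∣[(12 : ℤ)] (mapGL ℝ γ) = fun τ =>
        ((N : ℂ) ^ 11 * ((D : ℂ) ^ 12)⁻¹) *
          ModularForm.discriminant (upperTriangularGL A B D hAD • τ) := by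
  obtain ⟨δ', A, D, B, hAD, hN, hiff, hmat⟩ := exists_decomp N γ
  have hN0 : N ≠ 0 := NeZero.ne N
  have hApos : 0 < A := by
    rcases Nat.eq_zero_or_pos A with h | h
    · rw [h, zero_mul] at hN; exact absurd hN.symm hN0
    · exact h
  have hDpos : 0 < D := by
    rcases Nat.eq_zero_or_pos D with h | h
    · rw [h, mul_zero] at hN; exact absurd hN.symm hN0
    · exact h
  have hAR : (0 : ℝ) < A := by exact_mod_cast hApos
  have hDR : (0 : ℝ) < D := by exact_mod_cast hDpos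
  refine ⟨A, D, B, hAD, hApos, hDpos, hN, hiff, ?_⟩
  have h2 : (ModularForm.discriminant : ℍ → ℂ) ∣[(12 : ℤ)] (mapGL ℝ δ') =
      ModularForm.discriminant :=
    SlashInvariantFormClass.slash_action_eq CuspForm.discriminant _ ⟨δ', rfl⟩
  rw [deltaFun, ← SlashAction.slash_mul, hmat, SlashAction.slash_mul, h2]
  ext τ
  rw [slash_upperTriangularGL_apply 12 hAR hDR hAD]
  have hNC : (N : ℂ) = (A : ℂ) * (D : ℂ) := by exact_mod_cast hN.symm
  have hA0 : (A : ℂ) ≠ 0 := by exact_mod_cast hApos.ne'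
  have hD0 : (D : ℂ) ≠ 0 := by exact_mod_cast hDpos.ne'
  rw [hNC]
  push_cast
  norm_num
  field_simp

/-- The `q`-expansion (in the parameter of period `N`) of a translate of `deltaFun N`. -/
theorem deltaFun_slash_qExpansion (N : ℕ) [NeZero N] (γ : SL(2, ℤ)) :
    ∃ (A D : ℕ) (B : ℤ) (hA : A ^ 2 ≠ 0), 0 < A ∧ 0 < D ∧ A * D = N ∧
      (D = 1 ↔ γ ∈ Gamma0 N) ∧
      AnalyticAt ℂ (cuspFunction N (deltaFun N ∣[(12 : ℤ)] (mapGL ℝ γ))) 0 ∧
      qExpansion N (deltaFun N ∣[(12 : ℤ)] (mapGL ℝ γ)) =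
        PowerSeries.C ((N : ℂ) ^ 11 * ((D : ℂ) ^ 12)⁻¹) *
          PowerSeries.expand (A ^ 2) hA
            (PowerSeries.rescale (Complex.exp (2 * π * Complex.I * B / D))
              (qExpansion 1 ModularForm.discriminant)) ∧
      Function.Periodic ((deltaFun N ∣[(12 : ℤ)] (mapGL ℝ γ)) ∘ ofComplex) ((N : ℝ) : ℂ) ∧
      IsBoundedAtImInfty (deltaFun N ∣[(12 : ℤ)] (mapGL ℝ γ)) := by
  obtain ⟨A, D, B, hAD, hA, hD, hN, hiff, hfun⟩ := deltaFun_slash N γ
  have hNpos : (0 : ℝ) < (N : ℝ) := by exact_mod_cast Nat.pos_of_ne_zero (NeZero.ne N)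
  have hsum : ∀ τ : ℍ, HasSum (fun m : ℕ =>
      (PowerSeries.C ((N : ℂ) ^ 11 * ((D : ℂ) ^ 12)⁻¹) *
          PowerSeries.expand (A ^ 2) (pow_ne_zero 2 hA.ne')
            (PowerSeries.rescale (Complex.exp (2 * π * Complex.I * B / D))
              (qExpansion 1 ModularForm.discriminant))).coeff m • 𝕢 (N : ℝ) (τ : ℂ) ^ m)
      ((deltaFun N ∣[(12 : ℤ)] (mapGL ℝ γ)) τ) := by
    intro τ
    have hval : (deltaFun N ∣[(12 : ℤ)] (mapGL ℝ γ)) τ = ((N : ℂ) ^ 11 * ((D : ℂ) ^ 12)⁻¹) *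
          ModularForm.discriminant (upperTriangularGL A B D hAD • τ) := by
      rw [hfun]
    rw [hval]
    have h1 := (hasSum_comp_upperTriangularGL hasSum_discriminant hA hD B hAD τ).mul_left
      ((N : ℂ) ^ 11 * ((D : ℂ) ^ 12)⁻¹)
    rw [hN] at h1
    have hfeq : ∀ (c : ℂ) (S : PowerSeries ℂ) (q : ℂ),
        (fun m : ℕ => (PowerSeries.C c * S).coeff m • q ^ m) =
          fun i => c * (S.coeff i • q ^ i) := by
      intro c S q
      funext m
      rw [PowerSeries.coeff_C_mul, smul_eq_mul, smul_eq_mul, mul_assoc]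
    rw [hfeq]
    exact h1
  refine ⟨A, D, B, pow_ne_zero 2 hA.ne', hA, hD, hN, hiff,
    analyticAt_cuspFunction_of_hasSum hNpos (mdiff_deltaFun_slash N _) hsum,
    qExpansion_eq_of_hasSum hNpos (mdiff_deltaFun_slash N _) hsum,
    periodic_of_hasSum hNpos hsum, isBoundedAtImInfty_of_hasSum_qExpansion hNpos hsum⟩

/-- The `q`-expansion (in the parameter of period `N`) of `deltaFun N`. -/
theorem deltaFun_qExpansion (N : ℕ) [NeZero N] :
    AnalyticAt ℂ (cuspFunction N (deltaFun N)) 0 ∧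
    qExpansion N (deltaFun N) = PowerSeries.C ((N : ℂ) ^ 11) *
      PowerSeries.expand (N ^ 2) (pow_ne_zero 2 (NeZero.ne N))
        (qExpansion 1 ModularForm.discriminant) := by
  obtain ⟨A, D, B, hA2, hA, hD, hN, hiff, han, hq, -, -⟩ := deltaFun_slash_qExpansion N 1
  have hD1 : D = 1 := hiff.mpr (Subgroup.one_mem _)
  subst hD1
  rw [mul_one] at hN
  subst hN
  have h1 : deltaFun A ∣[(12 : ℤ)] (mapGL ℝ (1 : SL(2, ℤ))) = deltaFun A := by
    rw [map_one, SlashAction.slash_one]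
  rw [h1] at han hq
  refine ⟨han, ?_⟩
  rw [hq]
  have hexp : Complex.exp (2 * π * Complex.I * B / ((1 : ℕ) : ℂ)) = 1 := by
    rw [Nat.cast_one, div_one, mul_comm]
    exact Complex.exp_int_mul_two_pi_mul_I B
  rw [hexp, PowerSeries.rescale_one]
  simp

end Fermat.Agent.S22.H45
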