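import Mathlib
import Fermat.Agent.S22.H45.Translates

/-!
# S22, route A, package E: the unit shape of `g - g∣γ` for `g = N¹¹ Δ(N z)`
-/

set_option autoImplicit false

namespace Fermat.Agent.S22.H45

open UpperHalfPlane ModularForm CongruenceSubgroup Filter Topology Matrix.SpecialLinearGroup
open scoped MatrixGroups Manifold ModularForm Real

/-! ### Power series with coefficients in a subalgebra -/

/-- The subring of complex power series with all coefficients in the subalgebra `R`. -/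
noncomputable def psSub (R : Subalgebra ℤ ℂ) : Subring (PowerSeries ℂ) :=
  (PowerSeries.map (R.val : R →+* ℂ)).range

theorem mem_psSub_iff (R : Subalgebra ℤ ℂ) (S : PowerSeries ℂ) :
    S ∈ psSub R ↔ ∀ n, S.coeff n ∈ R := by
  constructor
  · rintro ⟨S', rfl⟩ n
    rw [PowerSeries.coeff_map]
    exact (S'.coeff n).2
  · intro h
    refine ⟨PowerSeries.mk fun n => ⟨S.coeff n, h n⟩, ?_⟩
    ext n
    simp

theorem C_mem_psSub (R : Subalgebra ℤ ℂ) {a : ℂ} (ha : a ∈ R) : PowerSeries.C a ∈ psSub R := by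
  rw [mem_psSub_iff]
  intro n
  rw [PowerSeries.coeff_C]
  split_ifs
  · exact ha
  · exact R.zero_mem

theorem X_mem_psSub (R : Subalgebra ℤ ℂ) : (PowerSeries.X : PowerSeries ℂ) ∈ psSub R :=
  ⟨PowerSeries.X, PowerSeries.map_X _⟩

theorem expand_mem_psSub (R : Subalgebra ℤ ℂ) {S : PowerSeries ℂ} (hS : S ∈ psSub R) (p : ℕ)
    (hp : p ≠ 0) : PowerSeries.expand p hp S ∈ psSub R := by
  rw [mem_psSub_iff] at hS ⊢
  intro n
  rw [PowerSeries.coeff_expand]
  split_ifs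
  · exact hS _
  · exact R.zero_mem

theorem rescale_mem_psSub (R : Subalgebra ℤ ℂ) {a : ℂ} (ha : a ∈ R) {S : PowerSeries ℂ}
    (hS : S ∈ psSub R) : PowerSeries.rescale a S ∈ psSub R := by
  rw [mem_psSub_iff] at hS ⊢
  intro n
  rw [PowerSeries.coeff_rescale]
  exact R.mul_mem (R.pow_mem ha n) (hS n)

theorem map_int_mem_psSub (R : Subalgebra ℤ ℂ) (S : PowerSeries ℤ) :
    S.map (Int.castRingHom ℂ) ∈ psSub R := by
  rw [mem_psSub_iff]
  intro n
  rw [PowerSeries.coeff_map, eq_intCast]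
  exact R.intCast_mem _

theorem exists_inv_of_mem_psSub (R : Subalgebra ℤ ℂ) {S : PowerSeries ℂ} (hS : S ∈ psSub R)
    (h1 : PowerSeries.constantCoeff S = 1) : ∃ V ∈ psSub R, S * V = 1 := by
  obtain ⟨S', rfl⟩ := hS
  have h1' : PowerSeries.constantCoeff S' = 1 := by
    apply Subtype.ext
    have h2 : PowerSeries.constantCoeff (PowerSeries.map (R.val : R →+* ℂ) S') =
        (R.val : R →+* ℂ) (PowerSeries.constantCoeff S') := by
      rw [← PowerSeries.coeff_zero_eq_constantCoeff_apply, PowerSeries.coeff_map,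
        PowerSeries.coeff_zero_eq_constantCoeff_apply]
    rw [h1] at h2
    simpa using h2.symm
  have hu : IsUnit S' := PowerSeries.isUnit_iff_constantCoeff.mpr (by rw [h1']; exact isUnit_one)
  obtain ⟨u, rfl⟩ := hu
  refine ⟨PowerSeries.map (R.val : R →+* ℂ) (↑u⁻¹ : PowerSeries R), ⟨_, rfl⟩, ?_⟩
  rw [← map_mul, Units.mul_inv, map_one]

/-! ### The cyclotomic ring -/

/-- `exp (2 π i / N)`. -/
noncomputable def zetaN (N : ℕ) : ℂ := Complex.exp (2 * π * Complex.I / N)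

/-- The ring `ℤ[exp (2 π i / N)]`. -/
noncomputable def cycR (N : ℕ) : Subalgebra ℤ ℂ := Algebra.adjoin ℤ {zetaN N}

theorem zetaN_pow (N : ℕ) [NeZero N] : zetaN N ^ N = 1 := by
  have hN : (N : ℂ) ≠ 0 := by exact_mod_cast NeZero.ne N
  rw [zetaN, ← Complex.exp_nat_mul, mul_div_cancel₀ _ hN, Complex.exp_two_pi_mul_I]

theorem zetaN_mem (N : ℕ) : zetaN N ∈ cycR N := Algebra.subset_adjoin rfl

theorem zetaN_inv_mem (N : ℕ) [NeZero N] : (zetaN N)⁻¹ ∈ cycR N := by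
  have h : (zetaN N)⁻¹ = zetaN N ^ (N - 1) := by
    have h1 : zetaN N * zetaN N ^ (N - 1) = 1 := by
      rw [← pow_succ', Nat.sub_add_cancel (Nat.pos_of_ne_zero (NeZero.ne N)), zetaN_pow]
    exact (eq_inv_of_mul_eq_one_right h1).symm
  rw [h]
  exact (cycR N).pow_mem (zetaN_mem N) _

theorem zetaN_zpow_mem (N : ℕ) [NeZero N] (z : ℤ) : zetaN N ^ z ∈ cycR N := by
  obtain ⟨n, rfl | rfl⟩ := z.eq_nat_or_neg
  · rw [zpow_natCast]
    exact (cycR N).pow_mem (zetaN_mem N) _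
  · rw [zpow_neg, zpow_natCast, ← inv_pow]
    exact (cycR N).pow_mem (zetaN_inv_mem N) _

theorem cycR_fg (N : ℕ) [NeZero N] : (Subalgebra.toSubmodule (cycR N)).FG := by
  apply IsIntegral.fg_adjoin_singleton
  refine ⟨Polynomial.X ^ N - 1, Polynomial.monic_X_pow_sub_C 1 (NeZero.ne N), ?_⟩
  simp [zetaN_pow]

theorem exp_mem_cycR (N : ℕ) [NeZero N] {A D : ℕ} (hN : A * D = N) (hD : 0 < D) (B : ℤ) :
    Complex.exp (2 * π * Complex.I * B / D) ∈ cycR N := by
  have h : Complex.exp (2 * π * Complex.I * B / D) = zetaN N ^ ((A : ℤ) * B) := by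
    rw [zetaN, ← Complex.exp_int_mul]
    congr 1
    have hD' : (D : ℂ) ≠ 0 := by exact_mod_cast hD.ne'
    have hN' : (N : ℂ) ≠ 0 := by exact_mod_cast NeZero.ne N
    have hNC : (N : ℂ) = (A : ℂ) * (D : ℂ) := by exact_mod_cast hN.symm
    rw [hNC] at hN' ⊢
    have hA' : (A : ℂ) ≠ 0 := left_ne_zero_of_mul hN'
    push_cast
    field_simp
  rw [h]
  exact zetaN_zpow_mem N _

/-! ### The unit shape of `g - g∣γ` -/

/-- **(U)** For `γ ∉ Γ₀(N)`, the `q`-expansion (period `N`) of `g - g∣γ`, `g = N¹¹ Δ(N z)`, is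
`c X^s Y` with `c ≠ 0` and `Y ∈ 1 + X ℤ[ζ_N]⟦X⟧`. -/
theorem unit_translate (N : ℕ) [NeZero N] (γ : SL(2, ℤ)) (hγ : γ ∉ Gamma0 N) :
    ∃ (c : ℂ) (s : ℕ) (Y : PowerSeries ℂ), c ≠ 0 ∧ Y ∈ psSub (cycR N) ∧
      PowerSeries.constantCoeff Y = 1 ∧
      AnalyticAt ℂ (cuspFunction N (deltaFun N - deltaFun N ∣[(12 : ℤ)] (mapGL ℝ γ))) 0 ∧
      qExpansion N (deltaFun N - deltaFun N ∣[(12 : ℤ)] (mapGL ℝ γ)) =
        PowerSeries.C c * PowerSeries.X ^ s * Y := by
  obtain ⟨A, D, B, hA2, hA, hD, hN, hiff, han, hq, -, -⟩ := deltaFun_slash_qExpansion N γ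
  obtain ⟨han0, hq0⟩ := deltaFun_qExpansion N
  have hN0 : N ≠ 0 := NeZero.ne N
  have hD1 : D ≠ 1 := fun h => hγ (hiff.mp h)
  have hD2 : 2 ≤ D := by omega
  have hAN : A < N := by rw [← hN]; nlinarith
  have hAN2 : A ^ 2 < N ^ 2 := Nat.pow_lt_pow_left hAN (by norm_num)
  set T : PowerSeries ℂ := tauSer1.map (Int.castRingHom ℂ) with hT
  set ζ : ℂ := Complex.exp (2 * π * Complex.I * B / D) with hζ
  set ζ' : ℂ := Complex.exp (2 * π * Complex.I * ((-B : ℤ) : ℂ) / D) with hζ'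
  have hζζ' : ζ * ζ' = 1 := by
    rw [hζ, hζ', ← Complex.exp_add]
    push_cast
    rw [show 2 * π * Complex.I * B / D + 2 * π * Complex.I * (-B) / D = 0 by ring,
      Complex.exp_zero]
  have hζR : ζ ∈ cycR N := exp_mem_cycR N hN hD B
  have hζ'R : ζ' ∈ cycR N := exp_mem_cycR N hN hD (-B)
  have hTR : T ∈ psSub (cycR N) := map_int_mem_psSub _ _
  have hT1 : PowerSeries.constantCoeff T = 1 := by
    rw [hT, ← PowerSeries.coeff_zero_eq_constantCoeff_apply, PowerSeries.coeff_map,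
      PowerSeries.coeff_zero_eq_constantCoeff_apply, constantCoeff_tauSer1]
    simp
  set E₁ : PowerSeries ℂ := PowerSeries.expand (N ^ 2) (pow_ne_zero 2 hN0) T with hE₁
  set E₂ : PowerSeries ℂ := PowerSeries.expand (A ^ 2) hA2 (PowerSeries.rescale ζ T) with hE₂
  have hND : (N : ℂ) ≠ 0 := by exact_mod_cast hN0
  have hDD : (D : ℂ) ≠ 0 := by exact_mod_cast hD.ne'
  have hP : qExpansion 1 ModularForm.discriminant = PowerSeries.X * T :=
    qExpansion_discriminant_eq_X_mul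
  have hq0' : qExpansion N (deltaFun N) =
      PowerSeries.C ((N : ℂ) ^ 11) * PowerSeries.X ^ (N ^ 2) * E₁ := by
    rw [hq0, hP, map_mul, PowerSeries.expand_X, mul_assoc]
  have hq' : qExpansion N (deltaFun N ∣[(12 : ℤ)] (mapGL ℝ γ)) =
      PowerSeries.C ((N : ℂ) ^ 11 * ((D : ℂ) ^ 12)⁻¹ * ζ) * PowerSeries.X ^ (A ^ 2) * E₂ := by
    have h1 : PowerSeries.rescale ζ (PowerSeries.X * T) =
        PowerSeries.C ζ * PowerSeries.X * PowerSeries.rescale ζ T := by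
      rw [map_mul, PowerSeries.rescale_X]
    have h2 : PowerSeries.expand (A ^ 2) hA2
        (PowerSeries.C ζ * PowerSeries.X * PowerSeries.rescale ζ T) =
          PowerSeries.C ζ * PowerSeries.X ^ (A ^ 2) * E₂ := by
      rw [map_mul, map_mul, PowerSeries.expand_C, PowerSeries.expand_X]
    have h3 : PowerSeries.C ((N : ℂ) ^ 11 * ((D : ℂ) ^ 12)⁻¹ * ζ) =
        PowerSeries.C ((N : ℂ) ^ 11 * ((D : ℂ) ^ 12)⁻¹) * PowerSeries.C ζ := map_mul _ _ _
    rw [hq, hP, h1, h2, h3]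
    ring
  refine ⟨-((N : ℂ) ^ 11 * ((D : ℂ) ^ 12)⁻¹ * ζ), A ^ 2,
    E₂ - PowerSeries.C ((D : ℂ) ^ 12 * ζ') * PowerSeries.X ^ (N ^ 2 - A ^ 2) * E₁,
    ?_, ?_, ?_, ?_, ?_⟩
  · have hζ0 : ζ ≠ 0 := Complex.exp_ne_zero _
    exact neg_ne_zero.mpr (mul_ne_zero (mul_ne_zero (pow_ne_zero _ hND)
      (inv_ne_zero (pow_ne_zero _ hDD))) hζ0)
  · refine Subring.sub_mem _ (expand_mem_psSub _ (rescale_mem_psSub _ hζR hTR) _ _)
      (Subring.mul_mem _ (Subring.mul_mem _ (C_mem_psSub _ ?_)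
        (Subring.pow_mem _ (X_mem_psSub _) _)) (expand_mem_psSub _ hTR _ _))
    exact (cycR N).mul_mem ((cycR N).pow_mem ((cycR N).natCast_mem D) 12) hζ'R
  · rw [map_sub, map_mul, map_mul, map_pow, PowerSeries.constantCoeff_X,
      zero_pow (by omega), mul_zero, zero_mul, sub_zero, hE₂, PowerSeries.constantCoeff_expand,
      ← PowerSeries.coeff_zero_eq_constantCoeff_apply, PowerSeries.coeff_rescale, pow_zero,
      one_mul, PowerSeries.coeff_zero_eq_constantCoeff_apply, hT1]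
  · rw [cuspFunction_sub han0.continuousAt han.continuousAt]
    exact han0.sub han
  · rw [qExpansion_sub han0 han, hq0', hq']
    have key : PowerSeries.C ((N : ℂ) ^ 11) =
        PowerSeries.C ((N : ℂ) ^ 11 * ((D : ℂ) ^ 12)⁻¹ * ζ) *
          PowerSeries.C ((D : ℂ) ^ 12 * ζ') := by
      rw [← map_mul]
      congr 1
      have : (N : ℂ) ^ 11 * ((D : ℂ) ^ 12)⁻¹ * ζ * ((D : ℂ) ^ 12 * ζ') =
          (N : ℂ) ^ 11 * (((D : ℂ) ^ 12)⁻¹ * (D : ℂ) ^ 12) * (ζ * ζ') := by ring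
      rw [this, hζζ', inv_mul_cancel₀ (pow_ne_zero _ hDD), mul_one, mul_one]
    have hX : (PowerSeries.X : PowerSeries ℂ) ^ (N ^ 2) =
        PowerSeries.X ^ (A ^ 2) * PowerSeries.X ^ (N ^ 2 - A ^ 2) := by
      rw [← pow_add]
      congr 1
      omega
    rw [key, hX, map_neg]
    ring

end Fermat.Agent.S22.H45
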