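import Mathlib
import Fermat.Agent.S23.H21.SepForm
import Fermat.Agent.S22.H45.Unit

/-!
# S22, route A, package D2: the cusp form `Δ_N = N¹¹ Δ(N z)` on `Γ₀(N)`
-/

set_option autoImplicit false

namespace Fermat.Agent.S22.H45

open UpperHalfPlane ModularForm CongruenceSubgroup Filter Topology Matrix.SpecialLinearGroup
open scoped MatrixGroups Manifold ModularForm Real

open Fermat.Agent.S23.H21 (Gamma0_le_conj)

open ConjAct Pointwise in
/-- `z ↦ N¹¹ Δ(N z)` as a cusp form of weight 12 on `Γ₀(N)`. -/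
noncomputable def deltaN (N : ℕ) [NeZero N] : CuspForm (Gamma0 N) 12 where
  toFun := deltaFun N
  slash_action_eq' γ hγ :=
    (CuspForm.translate CuspForm.discriminant (heckeDiagMatrix N)).slash_action_eq' γ
      (Gamma0_le_conj N hγ)
  holo' := (CuspForm.translate CuspForm.discriminant (heckeDiagMatrix N)).holo'
  zero_at_cusps' hc :=
    (CuspForm.translate CuspForm.discriminant (heckeDiagMatrix N)).zero_at_cusps'
      (hc.mono (Gamma0_le_conj N))

theorem deltaN_coe (N : ℕ) [NeZero N] : (deltaN N : ℍ → ℂ) = deltaFun N := rfl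

/-- The `q`-expansion of `deltaN N` in the parameter of period `N` has integer coefficients. -/
theorem deltaN_qExpansion_int (N : ℕ) [NeZero N] (n : ℕ) :
    ∃ t : ℤ, (qExpansion N (deltaN N : ℍ → ℂ)).coeff n = (t : ℂ) := by
  rw [deltaN_coe, (deltaFun_qExpansion N).2, PowerSeries.coeff_C_mul, PowerSeries.coeff_expand,
    qExpansion_discriminant_eq]
  split_ifs
  · refine ⟨(N : ℤ) ^ 11 * tauSer.coeff (n / N ^ 2), ?_⟩
    rw [PowerSeries.coeff_map, eq_intCast]
    push_cast
    rfl
  · exact ⟨0, by simp⟩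

end Fermat.Agent.S22.H45
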