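import Mathlib
import Fermat.Prelude.Thm_UpperHalfPlane_qExpansion_prod
import Fermat.Agent.S23.Defs
import Fermat.Agent.S22.H45.DeltaN

/-!
# S22, route A, package E (product form): the `q`-expansion of the "different"
`∏_{q ≠ 1} (g - g_q)` of `g = deltaN N` (in terms of `Fermat.Agent.S23.diffFun`)
-/

set_option autoImplicit false

namespace Fermat.Agent.S22.H45

open UpperHalfPlane ModularForm CongruenceSubgroup Filter Topology Matrix.SpecialLinearGroup
  SlashInvariantForm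
open scoped MatrixGroups Manifold ModularForm Real

open Fermat.Agent.S23 (diffFun)

/-- Analyticity of the cusp function of a finite product. -/
theorem analyticAt_cuspFunction_prod {h : ℝ} {ι : Type*} (s : Finset ι) {F : ι → ℍ → ℂ}
    (hF : ∀ i ∈ s, AnalyticAt ℂ (cuspFunction h (F i)) 0) :
    AnalyticAt ℂ (cuspFunction h (∏ i ∈ s, F i)) 0 := by
  induction s using Finset.cons_induction with
  | empty =>
    have h1 : cuspFunction h (1 : ℍ → ℂ) = 1 := by
      ext q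
      rcases eq_or_ne q 0 with rfl | hq
      · simp [cuspFunction, Function.Periodic.cuspFunction]
        exact Filter.Tendsto.limUnder_eq tendsto_const_nhds
      · simp [cuspFunction, Function.Periodic.cuspFunction_eq_of_nonzero h _ hq]
    rw [Finset.prod_empty, h1]
    exact analyticAt_const
  | cons a s ha ih =>
    have hFa : AnalyticAt ℂ (cuspFunction h (F a)) 0 := hF a (Finset.mem_cons_self a s)
    have ih2 := ih fun i hi ↦ hF i (Finset.mem_cons_of_mem hi)
    rw [Finset.prod_cons, cuspFunction_mul hFa.continuousAt ih2.continuousAt]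
    exact hFa.mul ih2

theorem unit_quotientFunc (N : ℕ) [NeZero N]
    (q : 𝒮ℒ ⧸ (((Gamma0 N : Subgroup SL(2, ℤ)) : Subgroup (GL (Fin 2) ℝ)).subgroupOf 𝒮ℒ))
    (hq : q ≠ QuotientGroup.mk (1 : 𝒮ℒ)) :
    ∃ (c : ℂ) (s : ℕ) (Y : PowerSeries ℂ), c ≠ 0 ∧ Y ∈ psSub (cycR N) ∧
      PowerSeries.constantCoeff Y = 1 ∧
      AnalyticAt ℂ (cuspFunction N ((deltaN N : ℍ → ℂ) - quotientFunc (deltaN N) q)) 0 ∧
      qExpansion N ((deltaN N : ℍ → ℂ) - quotientFunc (deltaN N) q) =
        PowerSeries.C c * PowerSeries.X ^ s * Y := by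
  induction q using QuotientGroup.induction_on with
  | H h =>
    obtain ⟨γ, hγ⟩ : ∃ γ : SL(2, ℤ), mapGL ℝ γ = (h : GL (Fin 2) ℝ)⁻¹ := inv_mem h.2
    have hγ' : γ ∉ Gamma0 N := by
      intro hmem
      apply hq
      rw [QuotientGroup.eq, mul_one, Subgroup.mem_subgroupOf]
      exact ⟨γ, hmem, hγ⟩
    have key := unit_translate N γ hγ'
    rw [hγ] at key
    exact key

/-- **(E)** The `q`-expansion (period `N`) of the different `∏_{q ≠ 1} (g - g_q)` of
`g = deltaN N` is `c X^s Y` with `c ≠ 0` and `Y ∈ 1 + X ℤ[ζ_N]⟦X⟧`. -/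
theorem diffFun_deltaN (N : ℕ) [NeZero N] :
    ∃ (c : ℂ) (s : ℕ) (Y : PowerSeries ℂ), c ≠ 0 ∧ Y ∈ psSub (cycR N) ∧
      PowerSeries.constantCoeff Y = 1 ∧
      AnalyticAt ℂ (cuspFunction N (diffFun (deltaN N))) 0 ∧
      qExpansion N (diffFun (deltaN N)) = PowerSeries.C c * PowerSeries.X ^ s * Y := by
  classical
  have H := unit_quotientFunc N
  choose! c s Y hc hY hY1 han hqe using H
  let _ := Fintype.ofFinite
    (𝒮ℒ ⧸ (((Gamma0 N : Subgroup SL(2, ℤ)) : Subgroup (GL (Fin 2) ℝ)).subgroupOf 𝒮ℒ))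
  set S := (Finset.univ : Finset
    (𝒮ℒ ⧸ (((Gamma0 N : Subgroup SL(2, ℤ)) : Subgroup (GL (Fin 2) ℝ)).subgroupOf 𝒮ℒ))).erase
      (QuotientGroup.mk (1 : 𝒮ℒ)) with hS
  have hmem : ∀ q ∈ S, q ≠ QuotientGroup.mk (1 : 𝒮ℒ) := fun q hq => Finset.ne_of_mem_erase hq
  have hdiff : diffFun (deltaN N) =
      ∏ q ∈ S, ((deltaN N : ℍ → ℂ) - quotientFunc (deltaN N) q) := rfl
  refine ⟨∏ q ∈ S, c q, ∑ q ∈ S, s q, ∏ q ∈ S, Y q, ?_, ?_, ?_, ?_, ?_⟩
  · exact Finset.prod_ne_zero_iff.mpr fun q hq => hc q (hmem q hq)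
  · exact Subring.prod_mem _ fun q hq => hY q (hmem q hq)
  · rw [map_prod]
    exact Finset.prod_eq_one fun q hq => hY1 q (hmem q hq)
  · rw [hdiff]
    exact analyticAt_cuspFunction_prod S fun q hq => han q (hmem q hq)
  · rw [hdiff, UpperHalfPlane.qExpansion_prod S (fun q hq => han q (hmem q hq)),
      Finset.prod_congr rfl (fun q hq => hqe q (hmem q hq)), Finset.prod_mul_distrib,
      Finset.prod_mul_distrib, ← map_prod, Finset.prod_pow_eq_pow_sum]

/-- **(E), inverse form.** There is a power series `V` with coefficients in a finitely generated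
additive subgroup of `ℂ` such that `qExpansion N (diffFun (deltaN N)) * V = c X^s`, `c ≠ 0`. -/
theorem exists_inverse_diffFun (N : ℕ) [NeZero N] :
    ∃ (c : ℂ) (s : ℕ) (V : PowerSeries ℂ) (M : Submodule ℤ ℂ), c ≠ 0 ∧ M.FG ∧
      (∀ n, V.coeff n ∈ M) ∧
      AnalyticAt ℂ (cuspFunction N (diffFun (deltaN N))) 0 ∧
      qExpansion N (diffFun (deltaN N)) * V = PowerSeries.C c * PowerSeries.X ^ s := by
  obtain ⟨c, s, Y, hc, hY, hY1, han, hq⟩ := diffFun_deltaN N
  obtain ⟨V, hV, hYV⟩ := exists_inv_of_mem_psSub (cycR N) hY hY1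
  refine ⟨c, s, V, Subalgebra.toSubmodule (cycR N), hc, cycR_fg N, ?_, han, ?_⟩
  · exact (mem_psSub_iff _ _).mp hV
  · rw [hq, mul_assoc, hYV, mul_one]

end Fermat.Agent.S22.H45
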