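import Mathlib
import Fermat.Agent.S22.Star
import Fermat.Agent.S22.H45.DeltaN

/-!
# S22, route A: `Δ_N = N¹¹ Δ(N z)` is a separating form with unit-like differences, hence every
cusp form on `Γ₀(N)` has its `q`-coefficients in a finitely generated `ℤ`-module
-/

set_option autoImplicit false

namespace Fermat.Agent.S22.H45

open UpperHalfPlane ModularForm CongruenceSubgroup Matrix.SpecialLinearGroup
open scoped MatrixGroups Manifold ModularForm Real

open Fermat.Agent.S22 (IsNice UnitLike IntC HasFGCoeffs hasFGCoeffs_of_sep isNice_of_modularForm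
  one_mem_strictPeriods)

theorem isNice_deltaFun_slash (N : ℕ) [NeZero N] (γ : SL(2, ℤ)) :
    IsNice N (deltaFun N ∣[(12 : ℤ)] (mapGL ℝ γ)) := by
  obtain ⟨A, D, B, hA2, hA, hD, hN, hiff, han, hq, hper, hbdd⟩ := deltaFun_slash_qExpansion N γ
  exact ⟨by simpa using hper, mdiff_deltaFun_slash N _, hbdd⟩

/-- **(★)** Every cusp form on `Γ₀(N)` has all its `q`-coefficients in a finitely generated
additive subgroup of `ℂ`. -/
theorem hasFGCoeffs (N : ℕ) [NeZero N] (k : ℤ) : HasFGCoeffs N k := by
  refine hasFGCoeffs_of_sep N (deltaN N) (cycR N) (cycR_fg N) (deltaN_qExpansion_int N) ?_ k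
  intro γ hγ
  constructor
  · have h1 : IsNice N (deltaN N : ℍ → ℂ) :=
      isNice_of_modularForm N (deltaN N) (one_mem_strictPeriods N)
    exact h1.sub (isNice_deltaFun_slash N γ)
  · obtain ⟨c, s, Y, hc, hY, hY1, han, hq⟩ := unit_translate N γ hγ
    exact ⟨c, s, Y, hc, (mem_psSub_iff _ _).mp hY, hY1, hq⟩

end Fermat.Agent.S22.H45
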